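import Fermat.Agent.Ribet.H573.WeakApprox
import Fermat.Agent.Ribet.H158.WallQSlope

/-!
# Row 37, WALL-q, leaf (Q2) FROB-AL, piece DICT-`ℚ̄` (helper667)

`N = q M'`, `A` a valuation subring of `ℚ̄` over `q`, `k = kA A`, `m > 0` ANY modulus,
`V∞ = H708.Vinf N A`, `V₀ = H708.Vzero N A` (the two Gauss valuation rings of `FF N`), vocabulary
`OneMod`, `Deep`, `DeepC` of `Ribet/H220/S2Spec.lean`.  Port of helper573's SPLIT-LIFT + WEAK-APPROX
(`Ribet/H573`) from the wall at `p` (exponent = residue characteristic, roots in `k((t^p))`) to the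
wall at `q` (exponent `m` arbitrary, roots GIVEN in `F_k = k(X₀(M'))` by `PPowSeries`).

* `splitLiftQ_inf`, `splitLiftQ_zero` : a reduction `c · h ^ m`, `h ∈ F_k`, on `C∞` (resp. `C₀`)
  gives `f = g ^ m · u` with `IsRedInf N A u 1` (resp. `IsRedZero`);
* `deepC_of_isRedInf_one_q`, `deepC_of_isRedZero_one_q` : reduction `1` ⟹ depth `ϖ` with a constant;
* **`splitGenQ_common`** : for `SplitGenQ m q M' A f`: `f = g ^ m · u` with ONE `g` and
  `u ∈ (1 + ϖ V∞) ∩ (1 + ϖ V₀)`, `ϖ ≠ 0` a nonunit of `A`;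
* `splitGenQ_common_oneAdd` : the same in the form `H129.OneAddNonunits` at `V∞` for `u`, `w_N u`.

Consequence for DESCENT: the Kummer-swap identity for `f` follows from the one for `u`
(`kummerSwap_of_common`), and `u` is `≡ 1` modulo a nonunit CONSTANT on both components, so at any
good level `E ∋ ϖ`, coefficients of `u`, one gets `PowVU w V m u` and `PowVU w (V.comap W) m u`
with root `1`.
-/

set_option autoImplicit false
set_option linter.unusedSectionVars false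
set_option linter.style.haveILetI false
set_option synthInstance.maxHeartbeats 400000
set_option maxHeartbeats 1000000

noncomputable section

namespace Fermat.Agent.Ribet.H667.FrobAL

open AlgebraicCurve ModularCurve HahnSeries
open Fermat.Agent.S24 Fermat.Agent.A2.H708 Fermat.Agent.A2.H528 Fermat.Agent.A2.H129
open Fermat.Agent.A2.H553
open Fermat.Agent.Ribet.H884 Fermat.Agent.Ribet.H220 Fermat.Agent.Ribet.H573
open Fermat.Agent.Ribet.H158.WallQ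

section Lift

variable {q m : ℕ} {A : ValuationSubring Kbar}

/-- the constant series `C e` lies in `F_k` -/
theorem C_mem_fullC {k : Type} [Field k] (M' : ℕ) (e : k) :
    (HahnSeries.C e : LaurentSeries k) ∈ modularFunctionFieldFullC k M' := by
  have h0 : algebraMap k (LaurentSeries k) e ∈ modularFunctionFieldFullC k M' :=
    (modularFunctionFieldFullC k M').algebraMap_mem e
  have h1 : algebraMap k (PowerSeries k) e = PowerSeries.C e := by simp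
  rwa [HahnSeries.algebraMap_apply', h1, HahnSeries.ofPowerSeries_C] at h0

/-- **SPLIT-LIFT on `C∞`, wall at `q`.**  If `f` has a reduction `c · h ^ m`, `h ∈ F_k(M')`,
`M' ∣ N`, on `C∞`, then `f = g ^ m · u` where `u` has reduction `1` on `C∞`. -/
theorem splitLiftQ_inf (hq : q.Prime) (hA : A.LiesOverPrime q) (hm : 0 < m) {N M' : ℕ}
    [NeZero N] (hMN : M' ∣ N) {f : FF N} {r : LaurentSeries (kA A)}
    (hred : IsRedInf N A f r) (hr : PPowSeries m M' r) :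
    ∃ g : FF N, g ≠ 0 ∧ IsRedInf N A (f * (g ^ m)⁻¹) 1 := by
  obtain ⟨hac, -⟩ := Fermat.Agent.Ribet.H939.resField q hq A hA
  haveI := hac
  obtain ⟨c, h, hc, hh, hrh⟩ := hr
  obtain ⟨e, he⟩ := IsAlgClosed.exists_pow_nat_eq c hm
  have hr0 : r ≠ 0 := IsRedInf.ne_zero hred
  have hs : (HahnSeries.C e * (h : LaurentSeries (kA A))) ∈
      modularFunctionFieldFullC (kA A) M' :=
    mul_mem (C_mem_fullC M' e) h.2
  have hsr : (HahnSeries.C e * (h : LaurentSeries (kA A))) ^ m = r := by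
    rw [mul_pow, ← map_pow, he, hrh]
  have hs0 : (HahnSeries.C e * (h : LaurentSeries (kA A))) ≠ 0 := by
    intro h0
    rw [h0, zero_pow hm.ne'] at hsr
    exact hr0 hsr.symm
  obtain ⟨g, hg0, hg⟩ := exists_isRedInf_full hq.ne_zero hA M' N hMN _ hs hs0
  refine ⟨g, hg0, ?_⟩
  have h1 : IsRedInf N A (f * (g ^ m)⁻¹)
      (r * ((HahnSeries.C e * (h : LaurentSeries (kA A))) ^ m)⁻¹) :=
    IsRedInf.mul hred (IsRedInf.inv (isRedInf_pow hg m))
  rw [hsr, mul_inv_cancel₀ hr0] at h1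
  exact h1

/-- **SPLIT-LIFT on `C₀`, wall at `q`.** -/
theorem splitLiftQ_zero (hq : q.Prime) (hA : A.LiesOverPrime q) (hm : 0 < m) {N M' : ℕ}
    [NeZero N] (hMN : M' ∣ N) {f : FF N} {r : LaurentSeries (kA A)}
    (hred : IsRedZero N A f r) (hr : PPowSeries m M' r) :
    ∃ g : FF N, g ≠ 0 ∧ IsRedZero N A (f * (g ^ m)⁻¹) 1 := by
  obtain ⟨g, hg0, hg⟩ := splitLiftQ_inf hq hA hm hMN (f := wF N f) hred hr
  refine ⟨wF N g, by simpa using hg0, ?_⟩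
  show IsRedInf N A (wF N (f * (wF N g ^ m)⁻¹)) 1
  rw [map_mul, map_inv₀, map_pow, wF_wF]
  exact hg

/-- reduction `1` on `C∞` ⟹ depth one with a constant at `V∞` (any exponent `m`) -/
theorem deepC_of_isRedInf_one_q (hq : q.Prime) (hA : A.LiesOverPrime q) {N : ℕ} [NeZero N]
    {f g : FF N} (hg : g ≠ 0) (h : IsRedInf N A (f * (g ^ m)⁻¹) 1) :
    ∃ ϖ : Kbar, ϖ ≠ 0 ∧ ϖ ∈ A.nonunits ∧ DeepC Kbar (Vinf N A hq.ne_zero hA) m (cF N ϖ) f := by
  obtain ⟨c, hc, hu⟩ := oneAddNonunits_of_isRedInf_one hq.ne_zero hA h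
  rw [vInf_eq_Vinf hq.ne_zero hA N] at hu
  have hp0 : (q : Kbar) ≠ 0 := by exact_mod_cast hq.ne_zero
  obtain ⟨ϖ, hϖ0, hϖ, hx⟩ :=
    (gaussLike_Vinf N A hq.ne_zero hA).exists_depth hu hp0 hA
  refine ⟨ϖ, hϖ0, hϖ, c, g, _, hc, hg, ?_, hx⟩
  have hc' : algebraMap Kbar (FF N) c ≠ 0 := by
    rwa [Ne, map_eq_zero_iff _ (algebraMap Kbar (FF N)).injective]
  have hgp : g ^ m ≠ 0 := pow_ne_zero m hg
  field_simp

/-- reduction `1` on `C₀` ⟹ depth one with a constant at `V₀` (any exponent `m`) -/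
theorem deepC_of_isRedZero_one_q (hq : q.Prime) (hA : A.LiesOverPrime q) {N : ℕ} [NeZero N]
    {f g : FF N} (hg : g ≠ 0) (h : IsRedZero N A (f * (g ^ m)⁻¹) 1) :
    ∃ ϖ : Kbar, ϖ ≠ 0 ∧ ϖ ∈ A.nonunits ∧
      DeepC Kbar (Vzero N A hq.ne_zero hA) m (cF N ϖ) f := by
  have h0 : IsRedInf N A (wF N (f * (g ^ m)⁻¹)) 1 := h
  have e : wF N (f * (g ^ m)⁻¹) = wF N f * ((wF N g) ^ m)⁻¹ := by
    rw [map_mul, map_inv₀, map_pow]
  rw [e] at h0
  have hg' : wF N g ≠ 0 := fun h1 => hg ((map_eq_zero_iff _ (wF N).injective).mp h1)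
  obtain ⟨ϖ, hϖ0, hϖ, hd⟩ := deepC_of_isRedInf_one_q hq hA hg' h0
  exact ⟨ϖ, hϖ0, hϖ, deepC_Vzero_of_wF hq.ne_zero hA hd⟩

end Lift

section Common

variable {q m M' : ℕ} [NeZero M'] [NeZero q] [NeZero (q * M')] {A : ValuationSubring Kbar}

/-- **SPLIT-LIFT** for a split Kummer generator of the wall at `q`. -/
theorem splitGenQ_lift (hq : q.Prime) (hA : A.LiesOverPrime q) (hm : 0 < m)
    {f : FF (q * M')} (h : SplitGenQ m q M' A f) :
    (∃ g : FF (q * M'), g ≠ 0 ∧ IsRedInf (q * M') A (f * (g ^ m)⁻¹) 1) ∧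
    (∃ g : FF (q * M'), g ≠ 0 ∧ IsRedZero (q * M') A (f * (g ^ m)⁻¹) 1) := by
  obtain ⟨r₁, r₂, h1, h2, hs1, hs2⟩ := h
  exact ⟨splitLiftQ_inf hq hA hm (dvd_mul_left M' q) h1 hs1,
    splitLiftQ_zero hq hA hm (dvd_mul_left M' q) h2 hs2⟩

/-- **WEAK-APPROX for split Kummer generators of the wall at `q`**: `f = g ^ m · u` with ONE `g`
and `u ∈ (1 + ϖ V∞) ∩ (1 + ϖ V₀)` for a nonzero nonunit `ϖ` of `A`. -/
theorem splitGenQ_common (hq : q.Prime) (hA : A.LiesOverPrime q) (hm : 0 < m)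
    {f : FF (q * M')} (h : SplitGenQ m q M' A f) :
    ∃ (ϖ : Kbar) (g u : FF (q * M')), ϖ ≠ 0 ∧ ϖ ∈ A.nonunits ∧ g ≠ 0 ∧ f = g ^ m * u ∧
      OneMod (Vinf (q * M') A hq.ne_zero hA) (cF (q * M') ϖ) u ∧
      OneMod (Vzero (q * M') A hq.ne_zero hA) (cF (q * M') ϖ) u := by
  obtain ⟨⟨g₁, hg₁0, hg₁⟩, ⟨g₂, hg₂0, hg₂⟩⟩ := splitGenQ_lift hq hA hm h
  obtain ⟨ϖ₁, hϖ₁0, hϖ₁, hd₁⟩ := deepC_of_isRedInf_one_q hq hA hg₁0 hg₁
  obtain ⟨ϖ₂, hϖ₂0, hϖ₂, hd₂⟩ := deepC_of_isRedZero_one_q hq hA hg₂0 hg₂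
  obtain ⟨ϖ, hϖ0, hϖ, ⟨x₁, hx₁, e₁⟩, ⟨x₂, hx₂, e₂⟩⟩ :=
    WA.exists_common_div A hϖ₁0 hϖ₂0 hϖ₁ hϖ₂
  have hI : Deep (Vinf (q * M') A hq.ne_zero hA) m (cF (q * M') ϖ) f := by
    obtain ⟨a, b, u, ha, hb, hf, hu⟩ := deep_of_deepC hm hd₁ |> fun h => deepC_of_deep h
    refine deep_of_deepC hm ⟨a, b, u, ha, hb, hf, ?_⟩
    refine WA.OneModV.mono (a := cF (q * M') x₁)
      ((gaussLike_Vinf (q * M') A hq.ne_zero hA).1 x₁ |>.2 hx₁) ?_ hu
    rw [cF, cF, cF, ← map_mul, e₁]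
  have hZ : Deep (Vzero (q * M') A hq.ne_zero hA) m (cF (q * M') ϖ) f := by
    obtain ⟨a, b, u, ha, hb, hf, hu⟩ := deep_of_deepC hm hd₂ |> fun h => deepC_of_deep h
    refine deep_of_deepC hm ⟨a, b, u, ha, hb, hf, ?_⟩
    refine WA.OneModV.mono (a := cF (q * M') x₂)
      ((gaussLike_Vzero (q * M') A hq.ne_zero hA).1 x₂ |>.2 hx₂) ?_ hu
    rw [cF, cF, cF, ← map_mul, e₂]
  obtain ⟨g, u, hg, hf, hu₁, hu₂⟩ :=
    deep_common (q * M') A hq hA (dvd_mul_right q M') m hϖ0 hϖ hI hZ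
  exact ⟨ϖ, g, u, hϖ0, hϖ, hg, hf, hu₁, hu₂⟩

/-- **WEAK-APPROX for split Kummer generators of the wall at `q`**, form `1 + 𝔪`: ONE `g ≠ 0`
such that `u = f / g ^ m` and `w_N u` lie in `1 + 𝔪_{V∞}`. -/
theorem splitGenQ_common_oneAdd (hq : q.Prime) (hA : A.LiesOverPrime q) (hm : 0 < m)
    {f : FF (q * M')} (h : SplitGenQ m q M' A f) :
    ∃ g : FF (q * M'), g ≠ 0 ∧
      OneAddNonunits (Vinf (q * M') A hq.ne_zero hA) (f * (g ^ m)⁻¹) ∧
      OneAddNonunits (Vinf (q * M') A hq.ne_zero hA) (wF (q * M') (f * (g ^ m)⁻¹)) := by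
  obtain ⟨ϖ, g, u, hϖ0, hϖ, hg, hf, hu₁, hu₂⟩ := splitGenQ_common hq hA hm h
  have hgp : g ^ m ≠ 0 := pow_ne_zero m hg
  have e : f * (g ^ m)⁻¹ = u := by
    rw [hf]
    field_simp
  have hϖV : cF (q * M') ϖ ∈ (Vinf (q * M') A hq.ne_zero hA).nonunits :=
    (Vinf (q * M') A hq.ne_zero hA).mem_nonunits_iff.2
      (((gaussLike_Vinf (q * M') A hq.ne_zero hA).valuation_lt_one_iff ϖ).2
        (A.mem_nonunits_iff.1 hϖ))
  have hϖV' : cF (q * M') ϖ ∈ (Vzero (q * M') A hq.ne_zero hA).nonunits :=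
    (Vzero (q * M') A hq.ne_zero hA).mem_nonunits_iff.2
      (((gaussLike_Vzero (q * M') A hq.ne_zero hA).valuation_lt_one_iff ϖ).2
        (A.mem_nonunits_iff.1 hϖ))
  have h1 : OneAddNonunits (Vinf (q * M') A hq.ne_zero hA) u :=
    oneAddNonunits_of_oneMod hϖV hu₁
  have h2 : OneAddNonunits (Vinf (q * M') A hq.ne_zero hA) (wF (q * M') u) :=
    (oneAddNonunits_Vzero_iff hq.ne_zero hA).1 (oneAddNonunits_of_oneMod hϖV' hu₂)
  refine ⟨g, hg, ?_, ?_⟩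
  · rw [e]
    exact h1
  · rw [e]
    exact h2

end Common

end Fermat.Agent.Ribet.H667.FrobAL

end
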