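import Fermat.Agent.Ribet.H667.FrobALSpec
import Fermat.Agent.Ribet.H667.FrobALDict

/-!
# Row 37, WALL-q, leaf (Q2) FROB-AL: reduction of DESCENT to UNITS (helper667)

By DICT-`ℚ̄` (`FrobALDict.lean`, `splitGenQ_common`) a split Kummer generator is `f = g ^ m · u` with
`u ∈ (1 + ϖ V∞) ∩ (1 + ϖ V₀)`, `ϖ` a nonzero nonunit CONSTANT.  The Kummer-swap identity is
multiplicative, and trivial on `m`-th powers, so it is enough to prove it for such `u`:

* `UnitSwapAt m q M' hq hqM A hA` : for every Frobenius `s` at `A` and every `u ≠ 0` with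
  `m ∣ div u`, `u ∈ (1 + ϖ V∞) ∩ (1 + ϖ V₀)`:   `s (w_q u) · u ^ q = y ^ m`, `y ≠ 0`.
  **= what LEVEL (`H818.levelFrobSwap` / `H801.levelSwap`) gives after descent to a good level
  `E ∋ ϖ`, coefficients of `u`, stable under `s`** (there `PowVU w V m u` holds with root `1`).
* `kummerSwapStrong_of_unitSwapAt` : `UnitSwapAt` ⟹ the strong `ℚ̄`-level Kummer form (hypotheses
  `f ≠ 0`, `m ∣ div f`, `SplitGenQ`; the shape of `H48.KummerSwapFor`), with constant `c = 1`;
* `kummerSwapAt_of_unitSwapAt` : `UnitSwapAt` ⟹ `KummerSwapAt` (`FrobALSpec.lean`).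
-/

set_option autoImplicit false
set_option linter.unusedSectionVars false
set_option linter.style.haveILetI false
set_option synthInstance.maxHeartbeats 400000
set_option maxHeartbeats 1000000

noncomputable section

namespace Fermat.Agent.Ribet.H667.FrobAL

open AlgebraicCurve ModularCurve HahnSeries
open Fermat.Agent.S24 Fermat.Agent.A2.H708 Fermat.Agent.A2.H528 Fermat.Agent.A2.H129
open Fermat.Agent.Ribet Fermat.Agent.Ribet.Spec Fermat.Agent.Ribet.H944.Wall
open Fermat.Agent.Ribet.H884 Fermat.Agent.Ribet.H220 Fermat.Agent.Ribet.H158.WallQ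

variable (m q M' : ℕ) [NeZero M'] [NeZero q] [NeZero (q * M')]

/-- **FROB-AL on units**: the Kummer-swap identity for functions `≡ 1` modulo a nonunit constant on
both components. -/
def UnitSwapAt (hq : q.Prime) (hqM : ¬ q ∣ M') (A : ValuationSubring Kbar)
    (hA : A.LiesOverPrime q) : Prop :=
  ∀ s : GQ, A.IsFrobeniusAt s q →
    ∀ u : FF (q * M'), u ≠ 0 → (∀ v : Place Kbar (FF (q * M')), (m : ℤ) ∣ v.ord u) →
    ∀ ϖ : Kbar, ϖ ≠ 0 → ϖ ∈ A.nonunits →
      OneMod (Vinf (q * M') A hq.ne_zero hA) (cF (q * M') ϖ) u →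
      OneMod (Vzero (q * M') A hq.ne_zero hA) (cF (q * M') ϖ) u →
      ∃ y : FF (q * M'), y ≠ 0 ∧
        gal (q * M') s (H801.swapL q M' hq hqM u) * u ^ q = y ^ m

variable {m q M'}

/-- **`UnitSwapAt` ⟹ the strong `ℚ̄`-level Kummer form** (constant `c = 1`). -/
theorem kummerSwapStrong_of_unitSwapAt (hq : q.Prime) (hqM : ¬ q ∣ M') (hm : 0 < m)
    {A : ValuationSubring Kbar} (hA : A.LiesOverPrime q)
    (hU : UnitSwapAt m q M' hq hqM A hA) (s : GQ) (hs : A.IsFrobeniusAt s q)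
    (f : FF (q * M')) (hf : f ≠ 0)
    (hdiv : ∀ v : Place Kbar (FF (q * M')), (m : ℤ) ∣ v.ord f)
    (hS : SplitGenQ m q M' A f) :
    ∃ y : FF (q * M'), y ≠ 0 ∧
      gal (q * M') s (H801.swapL q M' hq hqM f) * f ^ q = y ^ m := by
  obtain ⟨ϖ, g, u, hϖ0, hϖ, hg, hfu, hu₁, hu₂⟩ := splitGenQ_common hq hA hm hS
  have hgm : g ^ m ≠ 0 := pow_ne_zero m hg
  have hu0 : u ≠ 0 := by
    rintro rfl
    rw [mul_zero] at hfu
    exact hf hfu
  have hudiv : ∀ v : Place Kbar (FF (q * M')), (m : ℤ) ∣ v.ord u := by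
    intro v
    have h1 : v.ord f = (m : ℤ) * v.ord g + v.ord u := by
      rw [hfu, Place.ord_mul v hgm hu0, ord_pow]
    have h2 : v.ord u = v.ord f - (m : ℤ) * v.ord g := by rw [h1]; ring
    rw [h2]
    exact dvd_sub (hdiv v) (dvd_mul_right _ _)
  obtain ⟨y, hy0, hy⟩ := hU s hs u hu0 hudiv ϖ hϖ0 hϖ hu₁ hu₂
  have hsg : gal (q * M') s (H801.swapL q M' hq hqM g) ≠ 0 := by
    simpa using H801.swapL_ne_zero hq hqM hg
  refine ⟨gal (q * M') s (H801.swapL q M' hq hqM g) * g ^ q * y,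
    mul_ne_zero (mul_ne_zero hsg (pow_ne_zero q hg)) hy0, ?_⟩
  rw [hfu, map_mul, map_pow, map_mul, map_pow, mul_pow, mul_pow, mul_pow, ← hy]
  ring

/-- **`UnitSwapAt` ⟹ `KummerSwapAt`.** -/
theorem kummerSwapAt_of_unitSwapAt (hq : q.Prime) (hqM : ¬ q ∣ M') (hm : 0 < m)
    {A : ValuationSubring Kbar} (hA : A.LiesOverPrime q)
    (hU : UnitSwapAt m q M' hq hqM A hA) : KummerSwapAt m q M' hq hqM A := by
  intro s hs f x hfx hS
  obtain ⟨hf, D, -, hD⟩ := hfx
  obtain ⟨y, hy0, hy⟩ := kummerSwapStrong_of_unitSwapAt hq hqM hm hA hU s hs f hf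
    (fun v => ⟨_, hD v⟩) hS
  exact ⟨1, y, one_ne_zero, hy0, by rw [map_one, one_mul]; exact hy⟩

/-- **DESCENT on units** (good levels, modulus `p ^ n`): the remaining open input of FROB-AL. -/
def UnitSwapGoodStatement : Prop :=
  ∀ (p n q M' : ℕ) [NeZero M'] [NeZero q] [NeZero (q * M')] (h : WallQHyp p n q M'),
    ∀ (A : ValuationSubring Kbar) (hA : A.LiesOverPrime q),
      UnitSwapAt (p ^ n) q M' h.q_prime h.not_dvd A hA

/-- `UnitSwapGood ⟹ KummerSwapGood`. -/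
theorem kummerSwapGood_of_unitSwapGood (h : UnitSwapGoodStatement) :
    KummerSwapGoodStatement := by
  intro p n q M' _ _ _ hW A hA
  exact kummerSwapAt_of_unitSwapAt hW.q_prime hW.not_dvd (pow_pos hW.p_prime.pos n) hA
    (h p n q M' hW A hA)

end Fermat.Agent.Ribet.H667.FrobAL

end
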