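import Fermat.Agent.Ribet.H158.WallQGood
import Fermat.Agent.Ribet.H801.ALWall

/-!
# Row 37, WALL-q, leaf (Q2) FROB-AL: the frozen INTERFACE between TOP GLUE and DESCENT
  (sub-architect helper667; definitions only, nothing to prove here)

Official target (wall architect helper158, `Ribet/H158/WallQGood.lean`):
`H158.WallQ.Q2GoodStatement` = `Q2For (p ^ n) q M' A (splitPartQ (p ^ n) q M' A)` at good levels.

`N = q M'`, `q` prime, `q ∤ M'`, `A` a valuation subring of `ℚ̄` over `q`, `s` a Frobenius at `A`,
`w = H801.swapL q M'` the Atkin–Lehner swap of `FF (q M') = ℚ̄(X₀(qM'))` (NOT the Fricke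
involution), `gal (q M') s` the Galois action on the coefficients, `m` the modulus (`q ∤ m`).

## The interface
* `KummerSwapAt m q M' hq hqM A` : for every Frobenius `s` at `A` and every Kummer generator `f`
  modulo `m` (`div f = m D`) whose two reductions are `m`-th powers in `k(X₀(M'))` up to constants
  (`SplitGenQ m q M' A f`):
      `s (w f) * f ^ q = c * y ^ m`      (`c ∈ ℚ̄ˣ`, `y ∈ FF (q M')ˣ`).
  This is "Frobenius `= - q w_q` on the toric part `T[m]`" in Kummer form: `s (w f) f ^ q` is a
  Kummer generator of `w (s x) + q x`, and `c y ^ m` is one of the class `0`.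
* `KummerSwapGoodStatement` : `KummerSwapAt (p ^ n) q M'` under `WallQHyp p n q M'`
  (`p ≥ 5`, `q` odd `≠ p`, `q ∤ M'`, good level).                 **= output of DESCENT**
* `Q2TopStatement` : `0 < m → KummerSwapAt m q M' hq hqM A → Q2For m q M' A (splitPartQ …)`
  (`u = - w_q` on `J₀(qM')`, closure induction on `splitPartQ`).  **= TOP GLUE**

`q2Good_of : Q2TopStatement → KummerSwapGoodStatement → Q2GoodStatement` is proved here.

## Truth
`splitPartQ m = T[m]` (toric part of the `m`-torsion, `q ∤ m`); on the character group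
`X = H₁(dual graph)` Frobenius acts as `- w_q` (both components are fixed by Frobenius and swapped
by `w_q`, on the crossing points `w_q` IS Frobenius), on `μ_m` as `q`.  No "new", no eigen
hypothesis, any `m` prime to `q`, `p ∣ M'` allowed.
-/

set_option autoImplicit false
set_option synthInstance.maxHeartbeats 400000
set_option maxHeartbeats 1000000
set_option linter.unusedSectionVars false

noncomputable section

namespace Fermat.Agent.Ribet.H667.FrobAL

open AlgebraicCurve ModularCurve HahnSeries
open Fermat.Agent.S24 Fermat.Agent.A2.H708 Fermat.Agent.A2.H528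
open Fermat.Agent.Ribet Fermat.Agent.Ribet.Spec Fermat.Agent.Ribet.H944.Wall
open Fermat.Agent.Ribet.H884 Fermat.Agent.Ribet.H158.WallQ

/-- **FROB-AL in Kummer form at one place**: `s (w_q f) · f ^ q = c · y ^ m` for every Frobenius `s`
at `A` and every Kummer generator `f` modulo `m` with split reductions. -/
def KummerSwapAt (m q M' : ℕ) [NeZero M'] [NeZero q] [NeZero (q * M')] (hq : q.Prime)
    (hqM : ¬ q ∣ M') (A : ValuationSubring Kbar) : Prop :=
  ∀ s : GQ, A.IsFrobeniusAt s q →
    ∀ (f : FF (q * M')) (x : JZero (q * M')), IsKummerGen (q * M') m f x →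
      SplitGenQ m q M' A f →
      ∃ (c : Kbar) (y : FF (q * M')), c ≠ 0 ∧ y ≠ 0 ∧
        gal (q * M') s (H801.swapL q M' hq hqM f) * f ^ q =
          algebraMap Kbar (FF (q * M')) c * y ^ m

/-- **DESCENT** (output of LEVEL + DICT + descent `ℚ̄ → E`): FROB-AL in Kummer form at good
levels, modulus `p ^ n`. -/
def KummerSwapGoodStatement : Prop :=
  ∀ (p n q M' : ℕ) [NeZero M'] [NeZero q] [NeZero (q * M')] (h : WallQHyp p n q M'),
    ∀ A : ValuationSubring Kbar, A.LiesOverPrime q →
      KummerSwapAt (p ^ n) q M' h.q_prime h.not_dvd A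

/-- **TOP GLUE**, generic in the modulus `m > 0`. -/
def Q2TopStatement : Prop :=
  ∀ (m q M' : ℕ) [NeZero M'] [NeZero q] [NeZero (q * M')] (hq : q.Prime) (hqM : ¬ q ∣ M'),
    0 < m → ∀ A : ValuationSubring Kbar,
      KummerSwapAt m q M' hq hqM A → Q2For m q M' A (splitPartQ m q M' A)

/-- **(Q2) at good levels from TOP GLUE and DESCENT.** -/
theorem q2Good_of (hT : Q2TopStatement) (hD : KummerSwapGoodStatement) : Q2GoodStatement := by
  intro p n q M' _ _ _ h A hA
  exact hT (p ^ n) q M' h.q_prime h.not_dvd (pow_pos h.p_prime.pos n) A (hD p n q M' h A hA)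

end Fermat.Agent.Ribet.H667.FrobAL

end
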