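import Fermat.Agent.Ribet.H884.SlopeSpec
import Fermat.Agent.Ribet.H943.AtQ

/-!
# Row 37, WALL-q (Mazur's principle at `q ≠ p`): frozen decomposition + PROVED glue
  (wall architect helper667; mirror of `H944/WallSpec.lean` + `H884/SlopeSpec.lean` at `q ≠ p`)

Target of the row: `Spec.MazurPrincipleStatement` (`q ‖ L = q·M'`, `E[p]` irreducible and
unramified at `q`, `q ≢ 1 mod p` ⇒ level `M'`).  It is consumed by `H943.Row37.S43_of_hard`.

`J = JZero (q * M')`, `q ∤ M'`, `p ≥ 5` a prime `≠ q`, `A` a valuation subring of `ℚ̄` over `q`,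
`I = A.inertiaSubgroupIn ℚ`, `k = kA A` (algebraically closed of characteristic `q`),
`F_k = modularFunctionFieldFullC k M' = k(X₀(M'))`, `φ` a Frobenius element at `A`.
The degeneracy pair is `(H801.alphaL q M', H801.betaL q M')` (W-DEG, on main, generic in the level
prime).  Kummer generators and reductions are those of `H884/SlopeSpec.lean` (`IsKummerGen`,
`IsRedInf`, `IsRedZero`, `PDivSeries`: all generic in the level and in the torsion prime).

## The two subgroups (DEFINED here, FROZEN)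
* `finPartQ p q M' A` = `𝓕` ("finite part", `J⁰[p]`): classes with a Kummer generator `f`
  (`div f = p·D`) whose reductions `r∞`, `r₀` on the two components satisfy `p ∣ div r` on `X₀(M')_k`
  (slopes `0` at the supersingular points);
* `torPartQ p q M' A` = `𝒯` ("toric part", `T[p]`): classes with a Kummer generator whose two
  reductions are `p`-th powers in `F_k` (the `μ_p`-torsor `y^p = f` is trivial on both components).

## The three targets (Level 1) and the leaves (Level 2)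
| target | Prop | content | classical source |
|---|---|---|---|
| (Q1) | `Q1For`  | new + non-Eisenstein eigen + unramified at `A` ⇒ `x ∈ 𝓕` | component group `Φ` is Eisenstein |
| (Q2) | `Q2For`  | new eigenclass in `𝓕 ∖ 𝒯` ⇒ `Lowered M' p S a` | `J⁰/T ≅ J₀(M')²_k`, lift to char. 0 (S18 + count) |
| (Q3) | `Q3For`  | `∃ u` additive, `G_ℚ`-equivariant, involutive on `𝒯`, with `φ x = q · u x` on `𝒯` | `Frob_q = q·U_q = -q·w_q` on `T[p] = Hom(X, μ_p)` |

| leaf | Prop | = |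
|---|---|---|
| EIS-q  | `EisQStatement`  | (Q1) without NE: new + eigen + unramified ⇒ `T_ℓ x - (ℓ+1) x ∈ 𝓕` off a finite set |
| RED-q  | `RedQStatement`  | (Q2) for `𝓕 = finPartQ`, `𝒯 = torPartQ` |
| FROB-q | `FrobQStatement` | (Q3) for `𝒯 = torPartQ` |

## PROVED here
* `occursIn_of_not_newQ` (W0 at `q`), `mem_of_eisQ` (NE + Bezout), `q1For_of_eis`;
* `lowered_of_targets` : the core (`E[p]` in `𝒯` ⇒ `q⁻¹φ` is a Galois-equivariant involution of the
  irreducible `E[p]`, hence `± 1`, hence `det φ = q²`, hence `p ∣ q - 1`);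
* `wallQFrey_of_package`, `mazurPrinciple_of_wallQ`, `mazurPrinciple_of_package`,
  **`mazurPrinciple_of_leaves`** :
  `BLR → PL → DETF → DIM → NE → R3S → R3' → EIS-q → RED-q → FROB-q → MazurPrincipleStatement`
  (the first seven are closed on main: `WallQFinal.lean`).
-/

set_option autoImplicit false
set_option linter.style.haveILetI false
set_option linter.unusedSectionVars false
set_option synthInstance.maxHeartbeats 400000
set_option maxHeartbeats 1000000

noncomputable section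

open WeierstrassCurve WeierstrassCurve.Affine WeierstrassCurve.Affine.Point
open CuspForm ModularFormClass UpperHalfPlane

namespace Fermat.Agent.Ribet.H667.WallQ

open AlgebraicCurve ModularCurve HahnSeries
open Fermat.Agent.S24 Fermat.Agent.A2.H708 Fermat.Agent.A2.H528
open Fermat.Agent.Ribet.Spec Fermat.Agent.Ribet.H944.Wall Fermat.Agent.Ribet.H801
open Fermat.Agent.Ribet.H884

/-! ## Vocabulary -/

/-- `x` is fixed by the inertia group at `A`. -/
def UnramAt {N : ℕ} [NeZero N] (A : ValuationSubring Kbar) (x : JZero N) : Prop :=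
  ∀ σ ∈ A.inertiaSubgroupIn ℚ, σ • x = x

section Vocabulary

variable (p q M' : ℕ) [NeZero M'] [NeZero q] [NeZero (q * M')]

/-- `x` is a `q`-new `p`-torsion class of level `q·M'`: `p x = 0`, `α_* x = 0`, `β_* x = 0`. -/
def IsNewTorsQ (x : JZero (q * M')) : Prop :=
  p • x = 0 ∧ alphaL q M' x = 0 ∧ betaL q M' x = 0

/-- **(Q1)**  new + non-Eisenstein eigen + unramified ⇒ in the finite part. -/
def Q1For (A : ValuationSubring Kbar) (𝓕 : AddSubgroup (JZero (q * M'))) : Prop :=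
  ∀ (S : Finset ℕ) (a : ℕ → ℤ), NonEisAway p a → ∀ x : JZero (q * M'),
    IsNewTorsQ p q M' x → EigenAt (q * M') S a x → UnramAt A x → x ∈ 𝓕

/-- **(Q2)**  a new, unramified Hecke-eigenclass in `𝓕 ∖ 𝒯` has its eigensystem at level `M'`. -/
def Q2For (A : ValuationSubring Kbar) (𝓕 𝒯 : AddSubgroup (JZero (q * M'))) : Prop :=
  ∀ (S : Finset ℕ) (a : ℕ → ℤ), ∀ x ∈ 𝓕, x ∉ 𝒯 → IsNewTorsQ p q M' x →
    EigenAt (q * M') S a x → UnramAt A x → Lowered M' p S a

/-- **(Q3)**  Frobenius on the toric part: `φ = q · u` with `u` a `G_ℚ`-equivariant additive map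
which is an involution on (the new, unramified `p`-torsion of) `𝒯`.
(`u = - w_q`, Atkin-Lehner at `q`; equivalently `u = U_q` on the toric part.) -/
def Q3For (A : ValuationSubring Kbar) (𝒯 : AddSubgroup (JZero (q * M'))) : Prop :=
  ∀ φ : GQ, A.IsFrobeniusAt φ q →
    ∃ u : JZero (q * M') →+ JZero (q * M'),
      (∀ (σ : GQ) (x : JZero (q * M')), u (σ • x) = σ • u x) ∧
      ∀ x ∈ 𝒯, IsNewTorsQ p q M' x → UnramAt A x → u (u x) = x ∧ φ • x = q • u x

end Vocabulary

/-- **The WALL-q package** (Level 1): at every place over `q` there are subgroups `𝒯`, `𝓕` with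
(Q1), (Q2), (Q3). -/
def WallQPackageStatement : Prop :=
  ∀ (p q M' : ℕ) [NeZero M'] [NeZero q] [NeZero (q * M')], p.Prime → 5 ≤ p → q.Prime →
    q ≠ p → ¬ q ∣ M' →
    ∀ A : ValuationSubring Kbar, A.LiesOverPrime q →
      ∃ 𝓕 𝒯 : AddSubgroup (JZero (q * M')),
        Q1For p q M' A 𝓕 ∧ Q2For p q M' A 𝓕 𝒯 ∧ Q3For p q M' A 𝒯

/-- **The wall at `q`, Frey form**, conclusion `Lowered`, non-Eisenstein eigensystem. -/
def WallQFreyStatement : Prop :=
  ∀ (P : FreyPackage) (M' q : ℕ) [NeZero M'] [NeZero (q * M')], q.Prime → q ≠ P.p →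
    ¬ q ∣ M' →
    GaloisRepIsIrreducible (K := AlgebraicClosure ℚ) ℚ P.freyCurve P.p →
    P.GaloisRepUnramifiedAt q → ¬ P.p ∣ q - 1 →
    ∀ (S : Finset ℕ) (a : ℕ → ℤ), NonEisAway P.p a → FreyEmbedsIn P (q * M') S a →
      Lowered M' P.p S a

/-! ## Core -/

section Core

variable {p q M' : ℕ} [NeZero M'] [NeZero q] [NeZero (q * M')]

/-- **(W0) at `q`**: if the embedded group is not contained in the `q`-new part, the eigensystem
occurs at level `M'`. -/
theorem occursIn_of_not_newQ (hq : q.Prime) {G : Type*} [AddCommGroup G] {S : Finset ℕ}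
    {a : ℕ → ℤ} (ι : G →+ JZero (q * M')) (hp : ∀ x, p • ι x = 0)
    (hT : ∀ ℓ : Nat.Primes, (ℓ : ℕ) ∉ S → ∀ x : G,
      heckeOperatorBar (q * M') ℓ (ι x) = a ℓ • ι x)
    (h : ∃ x, alphaL q M' (ι x) ≠ 0 ∨ betaL q M' (ι x) ≠ 0) :
    OccursIn M' p (S ∪ {q}) a := by
  have hdeg := isDegPair_alphaL_betaL q M' hq
  obtain ⟨x, hx | hx⟩ := h
  · refine ⟨alphaL q M' (ι x), hx, ?_, fun ℓ hℓ => ?_⟩
    · rw [← map_nsmul, hp, _root_.map_zero]
    · rw [Finset.mem_union, not_or] at hℓ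
      rw [← hdeg.hecke_left ℓ hℓ.2, hT ℓ hℓ.1, map_zsmul]
  · refine ⟨betaL q M' (ι x), hx, ?_, fun ℓ hℓ => ?_⟩
    · rw [← map_nsmul, hp, _root_.map_zero]
    · rw [Finset.mem_union, not_or] at hℓ
      rw [← hdeg.hecke_right ℓ hℓ.2, hT ℓ hℓ.1, map_zsmul]

/-- Pure group theory: an eigenclass with non-Eisenstein eigenvalues whose Eisenstein
differences lie in a subgroup `𝓕` lies in `𝓕`. -/
theorem mem_of_eisQ (hp : p.Prime) (𝓕 : AddSubgroup (JZero (q * M'))) (S S' : Finset ℕ)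
    (a : ℕ → ℤ) (hNE : NonEisAway p a) (x : JZero (q * M')) (hpx : p • x = 0)
    (heig : EigenAt (q * M') S a x)
    (hE : ∀ ℓ : Nat.Primes, (ℓ : ℕ) ∉ S' →
      heckeOperatorBar (q * M') ℓ x - ((ℓ : ℕ) + 1) • x ∈ 𝓕) : x ∈ 𝓕 := by
  obtain ⟨ℓ, hℓ, hℓS, hndvd⟩ := hNE (S ∪ S')
  have hℓ1 : ℓ ∉ S := fun h => hℓS (Finset.mem_union_left _ h)
  have hℓ2 : ℓ ∉ S' := fun h => hℓS (Finset.mem_union_right _ h)
  have h1 := hE ⟨ℓ, hℓ⟩ hℓ2
  rw [heig ⟨ℓ, hℓ⟩ hℓ1] at h1
  have h2 : (a ℓ - ((ℓ : ℤ) + 1)) • x ∈ 𝓕 := by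
    have e : (a ℓ - ((ℓ : ℤ) + 1)) • x = a ℓ • x - ((ℓ : ℕ) + 1) • x := by
      have h3 : ((ℓ : ℤ) + 1) = (((ℓ : ℕ) + 1 : ℕ) : ℤ) := by push_cast; ring
      rw [sub_smul, h3, natCast_zsmul]
    rw [e]
    exact h1
  have hcop : IsCoprime (a ℓ - ((ℓ : ℤ) + 1)) (p : ℤ) := by
    have hpp : Prime (p : ℤ) := Nat.prime_iff_prime_int.mp hp
    exact (IsCoprime.symm ((Prime.coprime_iff_not_dvd hpp).mpr hndvd))
  obtain ⟨u, v, huv⟩ := hcop
  have hx : x = u • ((a ℓ - ((ℓ : ℤ) + 1)) • x) + v • ((p : ℤ) • x) := by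
    rw [smul_smul, smul_smul, ← add_zsmul, huv, one_zsmul]
  rw [hx]
  refine 𝓕.add_mem (𝓕.zsmul_mem h2 u) ?_
  have : ((p : ℤ) • x) = 0 := by rw [natCast_zsmul]; exact hpx
  rw [this, smul_zero]
  exact 𝓕.zero_mem

end Core

/-! ## Level 1 glue -/

section Glue1

variable {q M' : ℕ} [NeZero M'] [NeZero q] [NeZero (q * M')]

/-- **The core of Mazur's principle.**  At one place `A` over `q` with Frobenius `φ`, the three
targets (Q1), (Q2), (Q3) for a pair of subgroups `𝒯`, `𝓕` give the wall. -/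
theorem lowered_of_targets (P : FreyPackage) (hq : q.Prime) (hqp : q ≠ P.p)
    (hirr : GaloisRepIsIrreducible (K := AlgebraicClosure ℚ) ℚ P.freyCurve P.p)
    (hunr : P.GaloisRepUnramifiedAt q) (hq1 : ¬ P.p ∣ q - 1)
    (hdim : Module.finrank (ZMod P.p) (FreyTorsion P) = 2)
    {A : ValuationSubring Kbar} (hA : A.LiesOverPrime q) {φ : GQ} (hφ : A.IsFrobeniusAt φ q)
    (hdet : LinearMap.det
      (galoisRepModuleEnd (S := ℚ) (K := AlgebraicClosure ℚ) P.freyCurve P.p φ) = (q : ZMod P.p))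
    {𝓕 𝒯 : AddSubgroup (JZero (q * M'))} (h1 : Q1For P.p q M' A 𝓕)
    (h2 : Q2For P.p q M' A 𝓕 𝒯) (h3 : Q3For P.p q M' A 𝒯)
    {S : Finset ℕ} {a : ℕ → ℤ} (hNE : NonEisAway P.p a)
    (hemb : FreyEmbedsIn P (q * M') S a) : Lowered M' P.p S a := by
  haveI : Fact P.p.Prime := ⟨P.pp⟩
  obtain ⟨ι, hinj, hgal, hT⟩ := hemb
  have hp_tors : ∀ x, P.p • ι x = 0 := fun x => by
    rw [← map_nsmul, freyTorsion_nsmul, _root_.map_zero]
  by_cases h : ∃ x, alphaL q M' (ι x) ≠ 0 ∨ betaL q M' (ι x) ≠ 0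
  · exact ⟨S ∪ {q}, Finset.subset_union_left,
      Or.inl (occursIn_of_not_newQ hq ι hp_tors hT h)⟩
  have hnew : ∀ x, IsNewTorsQ P.p q M' (ι x) := by
    intro x
    refine ⟨hp_tors x, ?_, ?_⟩
    · by_contra hx
      exact h ⟨x, Or.inl hx⟩
    · by_contra hx
      exact h ⟨x, Or.inr hx⟩
  have heig : ∀ x, EigenAt (q * M') S a (ι x) := fun x ℓ hℓ => hT ℓ hℓ x
  have hfix : ∀ x, UnramAt A (ι x) := fun x σ hσ => by
    rw [← hgal]
    exact congrArg ι (hunr A hA σ hσ x)
  have hF : ∀ x, ι x ∈ 𝓕 := fun x => h1 S a hNE (ι x) (hnew x) (heig x) (hfix x)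
  by_cases hS : ∃ x, ι x ∉ 𝒯
  · obtain ⟨x, hx⟩ := hS
    exact h2 S a (ι x) (hF x) hx (hnew x) (heig x) (hfix x)
  exfalso
  have hι𝒯 : ∀ x, ι x ∈ 𝒯 := fun x => by
    by_contra hx
    exact hS ⟨x, hx⟩
  obtain ⟨u, huG, hu⟩ := h3 φ hφ
  have huu : ∀ x, u (u (ι x)) = ι x := fun x => (hu (ι x) (hι𝒯 x) (hnew x) (hfix x)).1
  have hφu : ∀ x, φ • ι x = q • u (ι x) := fun x => (hu (ι x) (hι𝒯 x) (hnew x) (hfix x)).2
  have hcopq : IsCoprime (q : ℤ) (P.p : ℤ) := by
    rw [isCoprime_comm]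
    refine (Nat.prime_iff_prime_int.mp P.pp).coprime_iff_not_dvd.2 ?_
    intro h
    have h' : P.p ∣ q := by exact_mod_cast h
    exact hqp ((Nat.prime_dvd_prime_iff_eq P.pp hq).1 h').symm
  obtain ⟨d, e, hde⟩ := hcopq
  have hud : ∀ x, u (ι x) = ι (d • (φ • x)) := by
    intro x
    have h2' : P.p • u (ι x) = 0 := by rw [← map_nsmul, hp_tors, _root_.map_zero]
    calc u (ι x) = d • (q • u (ι x)) := (bezout_zsmul_nsmul _ P.p q d e hde h2').symm
      _ = d • (φ • ι x) := by rw [hφu]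
      _ = ι (d • (φ • x)) := by rw [map_zsmul, hgal]
  -- the involution on `E[p]`
  let U : FreyTorsion P →ₗ[ZMod P.p] FreyTorsion P :=
    (d : ZMod P.p) • galoisRepModuleEnd (S := ℚ) (K := AlgebraicClosure ℚ) P.freyCurve P.p φ
  have hUdef : ∀ x, U x = d • (φ • x) := fun x => by
    show (d : ZMod P.p) • (φ • x) = d • (φ • x)
    exact Int.cast_smul_eq_zsmul (ZMod P.p) d (φ • x)
  have hιU : ∀ x, ι (U x) = u (ι x) := fun x => by rw [hUdef, hud]
  have hUG : ∀ (σ : GQ) (x : FreyTorsion P), U (σ • x) = σ • U x := fun σ x => by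
    apply hinj
    rw [hιU, hgal, huG, hgal, hιU]
  have hUU : ∀ x, U (U x) = x := fun x => by
    apply hinj
    rw [hιU, hιU, huu]
  have hφU : ∀ x : FreyTorsion P, φ • x = (q : ZMod P.p) • U x := fun x => by
    rw [hUdef, Nat.cast_smul_eq_nsmul]
    have h3' : d • (q • (φ • x)) = φ • x :=
      bezout_zsmul_nsmul _ P.p q d e hde (freyTorsion_nsmul P _)
    rw [smul_comm] at h3'
    exact h3'.symm
  have hdet' := det_eq_sq_of_involution P hirr hdim U hUG hUU φ (q : ZMod P.p) hφU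
  rw [hdet] at hdet'
  -- `q = q²` in `𝔽_p` forces `p ∣ q - 1`
  have hq0 : (q : ZMod P.p) ≠ 0 := by
    intro h
    rw [ZMod.natCast_eq_zero_iff] at h
    exact hqp ((Nat.prime_dvd_prime_iff_eq P.pp hq).1 h).symm
  have hq1' : (q : ZMod P.p) = 1 := by
    have : (q : ZMod P.p) * ((q : ZMod P.p) - 1) = 0 := by
      rw [mul_sub, mul_one, ← pow_two, ← hdet', sub_self]
    rcases mul_eq_zero.1 this with h | h
    · exact absurd h hq0
    · exact sub_eq_zero.1 h
  apply hq1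
  have : ((q - 1 : ℕ) : ZMod P.p) = 0 := by
    rw [Nat.cast_sub hq.one_le, hq1']
    simp
  exact (ZMod.natCast_eq_zero_iff _ _).1 this

end Glue1

/-- **Level 1 glue**: the package gives the wall at `q` in Frey form. -/
theorem wallQFrey_of_package (hPl : PlacesStatement) (hDet : DetFrobStatement)
    (hDim : TorsionRankStatement) (hW : WallQPackageStatement) : WallQFreyStatement := by
  intro P M' q _ _ hq hqp hqM' hirr hunr hq1 S a hNE hemb
  haveI : NeZero q := ⟨hq.ne_zero⟩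
  obtain ⟨A, hA, φ, hφ⟩ := hPl q hq
  obtain ⟨𝓕, 𝒯, h1, h2, h3⟩ := hW P.p q M' P.pp P.hp5 hq hqp hqM' A hA
  exact lowered_of_targets P hq hqp hirr hunr hq1 (hDim P) hA hφ (hDet P q hq hqp A hA φ hφ)
    h1 h2 h3 hNE hemb

/-- **Mazur's principle from the wall at `q` in `Lowered` form**:
`BLR + WALL-q + NE + R3S + R3' ⇒ MPq`. -/
theorem mazurPrinciple_of_wallQ (hE : EmbedStatement) (hWall : WallQFreyStatement)
    (hNE : NonEisensteinStatement) (hR3 : EigenformOfOccursAwayStatement)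
    (hR3' : AlmostAllToWitnessStatement) : MazurPrincipleStatement := by
  intro P L q hLpos hq hqp hqL hsq hirr hmod hunr hq1
  obtain ⟨M', rfl⟩ := hqL
  have hM'pos : 0 < M' := by
    rcases Nat.eq_zero_or_pos M' with h0 | h0
    · subst h0; simp at hLpos
    · exact h0
  rw [Nat.mul_div_cancel_left M' hq.pos]
  have hqM' : ¬ q ∣ M' := by
    rintro ⟨k, rfl⟩
    exact hsq ⟨k, by ring⟩
  haveI : NeZero M' := ⟨hM'pos.ne'⟩
  haveI : NeZero (q * M') := ⟨hLpos.ne'⟩
  obtain ⟨f, W, 𝔪, hwit⟩ := hmod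
  have hwit' : P.IsCongruentWitness (q * M') f W 𝔪 := hwit
  obtain ⟨S, hemb⟩ := hE P (q * M') hirr f W 𝔪 hwit'
  have hNE' : NonEisAway P.p (fun ℓ => W.apOfModel ℓ) := by
    intro S₁
    obtain ⟨ℓ, hℓ, hℓS, -, hne⟩ := hNE P W hwit.2.1 hirr S₁
    exact ⟨ℓ, hℓ, hℓS, hne⟩
  obtain ⟨S', g, 𝔪', hg, hmax, hp, hc⟩ :=
    eigenAway_of_lowered hR3 P.pp (hWall P M' q hq hqp hqM' hirr hunr hq1 S _ hNE' hemb)
  exact ⟨g, W, 𝔪', hR3' P M' hM'pos g W 𝔪' _ hg hwit.2.1 hmax hp hc⟩

/-- **Mazur's principle from the WALL-q package.** -/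
theorem mazurPrinciple_of_package (hE : EmbedStatement) (hPl : PlacesStatement)
    (hDet : DetFrobStatement) (hDim : TorsionRankStatement) (hNE : NonEisensteinStatement)
    (hR3 : EigenformOfOccursAwayStatement) (hR3' : AlmostAllToWitnessStatement)
    (hW : WallQPackageStatement) : MazurPrincipleStatement :=
  mazurPrinciple_of_wallQ hE (wallQFrey_of_package hPl hDet hDim hW) hNE hR3 hR3'

/-! ## Level 2: the concrete subgroups and the three leaves -/

/-- `r` is (the `t`-expansion of) a nonzero `p`-th power of `F_k = k(X₀(M'))`. -/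
def PthPowSeries (p M' : ℕ) {k : Type} [Field k] (r : LaurentSeries k) : Prop :=
  ∃ h : modularFunctionFieldFullC k M', h ≠ 0 ∧ (h : LaurentSeries k) ^ p = r

section Parts

variable (p q M' : ℕ) [NeZero (q * M')] (A : ValuationSubring Kbar)

/-- `f` (of level `q·M'`) has slopes `0` on both components: both reductions have divisors in
`p · Div(X₀(M')_k)`. -/
def FinGenQ (f : FF (q * M')) : Prop :=
  ∃ r₁ r₂ : LaurentSeries (kA A), IsRedInf (q * M') A f r₁ ∧ IsRedZero (q * M') A f r₂ ∧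
    PDivSeries p M' r₁ ∧ PDivSeries p M' r₂

/-- `f` (of level `q·M'`) has `p`-th power reductions on both components. -/
def TorGenQ (f : FF (q * M')) : Prop :=
  ∃ r₁ r₂ : LaurentSeries (kA A), IsRedInf (q * M') A f r₁ ∧ IsRedZero (q * M') A f r₂ ∧
    PthPowSeries p M' r₁ ∧ PthPowSeries p M' r₂

/-- Classes with a Kummer generator of slopes `0`. -/
def finSetQ : Set (JZero (q * M')) :=
  {x | ∃ f : FF (q * M'), IsKummerGen (q * M') p f x ∧ FinGenQ p q M' A f}

/-- Classes with a Kummer generator with `p`-th power reductions. -/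
def torSetQ : Set (JZero (q * M')) :=
  {x | ∃ f : FF (q * M'), IsKummerGen (q * M') p f x ∧ TorGenQ p q M' A f}

/-- **The finite part `𝓕`** of `J₀(qM')[p]` at `A ∣ q`. -/
def finPartQ : AddSubgroup (JZero (q * M')) := AddSubgroup.closure (finSetQ p q M' A)

/-- **The toric part `𝒯`** of `J₀(qM')[p]` at `A ∣ q`. -/
def torPartQ : AddSubgroup (JZero (q * M')) := AddSubgroup.closure (torSetQ p q M' A)

end Parts

/-- **EIS-q** (the component group is Eisenstein): for a new, unramified Hecke-eigenclass `x` of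
`p`-torsion, `T_ℓ x - (ℓ + 1) x ∈ 𝓕` off a finite set.  (The slopes of an unramified class are
proportional to the slopes of the modular unit `Δ(t^q)/Δ(t)`: tame analogue of `H884.EisSlope`.) -/
def EisQStatement : Prop :=
  ∀ (p q M' : ℕ) [NeZero M'] [NeZero q] [NeZero (q * M')], p.Prime → 5 ≤ p → q.Prime →
    q ≠ p → ¬ q ∣ M' →
    ∀ A : ValuationSubring Kbar, A.LiesOverPrime q →
    ∀ (S : Finset ℕ) (a : ℕ → ℤ) (x : JZero (q * M')),
      IsNewTorsQ p q M' x → EigenAt (q * M') S a x → UnramAt A x →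
      ∃ S' : Finset ℕ, ∀ ℓ : Nat.Primes, (ℓ : ℕ) ∉ S' →
        heckeOperatorBar (q * M') ℓ x - ((ℓ : ℕ) + 1) • x ∈ finPartQ p q M' A

/-- **RED-q** = (Q2) for the concrete subgroups: a new eigenclass whose reductions have
`p`-divisible divisors but are not both `p`-th powers gives a nonzero eigenclass of
`Pic⁰(X₀(M')_k)[p]`, which lifts to `J₀(M')(ℚ̄)[p]` (S18 + torsion count). -/
def RedQStatement : Prop :=
  ∀ (p q M' : ℕ) [NeZero M'] [NeZero q] [NeZero (q * M')], p.Prime → 5 ≤ p → q.Prime →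
    q ≠ p → ¬ q ∣ M' →
    ∀ A : ValuationSubring Kbar, A.LiesOverPrime q →
      Q2For p q M' A (finPartQ p q M' A) (torPartQ p q M' A)

/-- **FROB-q** = (Q3) for the concrete toric part: `φ = q · u` on `𝒯`, `u = - w_q`. -/
def FrobQStatement : Prop :=
  ∀ (p q M' : ℕ) [NeZero M'] [NeZero q] [NeZero (q * M')], p.Prime → 5 ≤ p → q.Prime →
    q ≠ p → ¬ q ∣ M' →
    ∀ A : ValuationSubring Kbar, A.LiesOverPrime q → Q3For p q M' A (torPartQ p q M' A)

/-- (Q1) from EIS-q. -/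
theorem q1For_of_eis (hE : EisQStatement) (p q M' : ℕ) [NeZero M'] [NeZero q]
    [NeZero (q * M')] (hp : p.Prime) (hp5 : 5 ≤ p) (hq : q.Prime) (hqp : q ≠ p)
    (hqM : ¬ q ∣ M') (A : ValuationSubring Kbar) (hA : A.LiesOverPrime q) :
    Q1For p q M' A (finPartQ p q M' A) := by
  intro S a hNE x hx hex hun
  obtain ⟨S', hS'⟩ := hE p q M' hp hp5 hq hqp hqM A hA S a x hx hex hun
  exact mem_of_eisQ hp _ S S' a hNE x hx.1 hex hS'

/-- **The package from the three leaves.** -/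
theorem wallQPackage_of_leaves (hE : EisQStatement) (hR : RedQStatement)
    (hF : FrobQStatement) : WallQPackageStatement := by
  intro p q M' _ _ _ hp hp5 hq hqp hqM A hA
  exact ⟨finPartQ p q M' A, torPartQ p q M' A, q1For_of_eis hE p q M' hp hp5 hq hqp hqM A hA,
    hR p q M' hp hp5 hq hqp hqM A hA, hF p q M' hp hp5 hq hqp hqM A hA⟩

/-- **Mazur's principle from the three WALL-q leaves** and the (landed) row inputs. -/
theorem mazurPrinciple_of_leaves (hE : EmbedStatement) (hPl : PlacesStatement)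
    (hDet : DetFrobStatement) (hDim : TorsionRankStatement) (hNE : NonEisensteinStatement)
    (hR3 : EigenformOfOccursAwayStatement) (hR3' : AlmostAllToWitnessStatement)
    (hEis : EisQStatement) (hRed : RedQStatement) (hFrob : FrobQStatement) :
    MazurPrincipleStatement :=
  mazurPrinciple_of_package hE hPl hDet hDim hNE hR3 hR3'
    (wallQPackage_of_leaves hEis hRed hFrob)

end Fermat.Agent.Ribet.H667.WallQ

end
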